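/-
S44 / F / Dim (sub-architect helper102): SKELETON of block (DIM).  Never import this file.
-/
import Fermat.Agent.S44.F.Dim.Defs
import Fermat.Agent.S44.F.I1.Main
import Fermat.Agent.S44.F.Stab
import Fermat.Agent.GAL.GenusBridge.Main
import Fermat.Agent.GAL.Mult.Statement

set_option autoImplicit false

noncomputable section

namespace Fermat.Agent.S44.F

open ModularCurve AlgebraicCurve Fermat.Agent.S24 Fermat.Agent.S24.B Fermat.Agent.S24.FF
  Fermat.Agent.S27.Riemann Fermat.Agent.GAL Fermat.Agent.GAL.GenusBridge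
open UpperHalfPlane CongruenceSubgroup ModularFormClass Module
open scoped MatrixGroups Manifold ModularForm

/-! ### Leaf G : Dim/Genus.lean -/

theorem genusFF_le_finrank (M : ℕ) [NeZero M] :
    genusFF Kbar (FN M) ≤ finrank ℂ (CuspForm (Gamma0 M) 2) := sorry

/-! ### Leaf LA : Dim/LinAlg.lean (Mathlib only) -/

theorem perp_mem {K L σ : Type*} [Field K] [Field L] [Fintype σ] (ι : K →+* L)
    (P : Submodule K (σ → K)) (U : Submodule L (σ → L))
    (hPU : ∀ x ∈ P, ∀ u ∈ U, ∑ i, ι (x i) * u i = 0)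
    (hdim : Fintype.card σ ≤ finrank K P + finrank L U)
    (y : σ → K) (hy : ∀ x ∈ P, ∑ i, x i * y i = 0) : (fun i => ι (y i)) ∈ U := sorry

/-! ### Leaf R : Dim/Rank.lean -/

theorem finrank_map_PP_ge (M : ℕ) [NeZero M] (m : ℕ) :
    (m : ℤ) - genusFF Kbar (FN M) ≤ finrank Kbar ((Linf M m).map (PP M m)) := sorry

/-! ### Leaf T : Dim/Trunc.lean -/

/-- the truncated `q`-expansion -/
def truncS (M m : ℕ) : CuspForm (Gamma0 M) 2 →ₗ[ℂ] (Fin m → ℂ) where
  toFun f i := qCoeff f (i + 1)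
  map_add' f g := sorry
  map_smul' c f := sorry

theorem exists_truncS_injective (M : ℕ) [NeZero M] :
    ∃ D : ℕ, ∀ m ≥ D, Function.Injective (truncS M m) := sorry

/-! ### Leaf B1 : Dim/Bridge/Val.lean -/

theorem map_le_one_of_mem_L_single {K F : Type*} [Field K] [Field F] [Algebra K F] [IsAlgClosed K]
    [CharZero K] [IsFF1 K F] {Γ₀ : Type*} [LinearOrderedCommGroupWithZero Γ₀]
    (V : Valuation F Γ₀) (hV : ∀ c : K, V (algebraMap K F c) ≤ 1) (v₀ : Place K F) (m : ℤ) (f : F)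
    (hf : f ∈ riemannRochSpace (Finsupp.single v₀ m))
    (hne : V.valuationSubring ≠ v₀.toValuationSubring) : V f ≤ 1 := sorry

/-! ### Leaf B2 : Dim/Bridge/Hol.lean -/

theorem ordAt_le_of_mem_Linf {M : ℕ} [NeZero M] {m : ℕ} (f : FN M) (hf : f ∈ Linf M m)
    (a b : AL M) (hb : b ≠ 0)
    (hab : Psi M f * algebraMap (AL M) (LN M) b = algebraMap (AL M) (LN M) a) (τ₀ : ℍ) :
    ordAt τ₀ b.1 ≤ ordAt τ₀ a.1 := sorry

/-! ### Leaf B3 : Dim/Bridge/CuspNe.lean -/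

theorem order_texp_smul_jd {M : ℕ} [NeZero M] (γ : SL(2, ℤ)) :
    (texp M (γ • jd M M dvd_rfl)).order = -((Int.gcd (M : ℤ) (γ⁻¹ 1 0) : ℤ) ^ 2) := sorry

theorem ordersCuspVal_valuationSubring_ne {M : ℕ} [NeZero M] (γ : SL(2, ℤ))
    (hγ : γ ∉ Gamma0 M) :
    (ordersCuspVal M γ).valuationSubring ≠ (S17.W.cusp M).toValuationSubring := sorry

/-! ### Leaf B4 : Dim/Bridge/Bdd.lean -/

theorem bdd_of_hasTExp {N : ℕ} [NeZero N] {u a b : ℍ → ℂ} {sa sb : LaurentSeries Kbar}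
    (ha : HasTExp N a sa) (hb : HasTExp N b sb) (hsb : sb ≠ 0) (hub : ∀ τ, u τ * b τ = a τ)
    (hord : ∀ k : ℤ, k < sb.order → sa.coeff k = 0) : IsBoundedAtImInfty u := sorry

/-! ### Leaf B5 : Dim/Bridge/Polar.lean -/

theorem bdd_sub_polar {N : ℕ} [NeZero N] {u a b : ℍ → ℂ} {sa sb : LaurentSeries Kbar}
    (ha : HasTExp N a sa) (hb : HasTExp N b sb) (hsb : sb ≠ 0) (hub : ∀ τ, u τ * b τ = a τ)
    (s : LaurentSeries Kbar) (hs : qExpand Kbar N s * sb = sa) (m : ℕ)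
    (hm : ∀ k : ℤ, k < -(m : ℤ) → s.coeff k = 0) :
    IsBoundedAtImInfty (fun τ => u τ -
      ∑ n ∈ Finset.Icc 1 m, iota (s.coeff (-(n : ℤ))) * I1.qq τ ^ (-(n : ℤ))) := sorry

end Fermat.Agent.S44.F

end
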